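import Fermat.Agent.WaringHua.Minor
import Fermat.Agent.WaringAsymptotic.Main
import Fermat.Agent.AlmostGoldbach.Circle

/-!
# Waring's formula in mean square

One grid for all `N ≤ X`: the major arcs give the main term for each `N`, and by Bessel's inequality
the minor arcs give the sum of the squares over `N`, which is `M ∑ |f| ^ (2 s)`; for `2 s > 2 ^ k`
Hua's inequality saves a power of `X` there.
-/

set_option autoImplicit false

noncomputable section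

namespace FA.WaringAlmostAll

open Finset FA.WaringAsymptotic
open FA.ThreePrimes hiding mainTerm singularSeries singularTerm
open scoped Real

/-- The main term on the grid of `X`, for the number `N`. -/
def boxTerm (k s X N : ℕ) (x : ℝ) : ℂ :=
  weightSum (1 / (k : ℝ)) X x ^ s * eAdd (-((N : ℝ) * x))

/-- The summand on the grid of `X`, for the number `N`. -/
def boxSummand (k s X M N h : ℕ) : ℂ :=
  waringSum k (rootFloor k X) ((h : ℝ) / M) ^ s * eAdd (-((N : ℝ) * ((h : ℝ) / M)))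

theorem norm_boxTerm (k s X N : ℕ) (x : ℝ) : ‖boxTerm k s X N x‖ = ‖mainTerm k s X x‖ := by
  rw [boxTerm, mainTerm, norm_mul, norm_mul, norm_eAdd, norm_eAdd]

/-- One arc does not depend on `N`. -/
theorem norm_boxSummand_sub (k s X M N h : ℕ) (z : Σ _ : ℕ, ℕ) :
    ‖boxSummand k s X M N h - arcCoef k s N z * boxTerm k s X N ((h : ℝ) / M + -centre z)‖ =
      ‖waringSum k (rootFloor k X) ((h : ℝ) / M) ^ s * eAdd (-((X : ℝ) * ((h : ℝ) / M))) -
        arcCoef k s X z * mainTerm k s X ((h : ℝ) / M + -centre z)‖ := by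
  obtain ⟨W, hW⟩ : ∃ W, W = waringSum k (rootFloor k X) ((h : ℝ) / M) ^ s -
      densityFactor k z.1 z.2 ^ s * weightSum (1 / (k : ℝ)) X ((h : ℝ) / M + -centre z) ^ s :=
    ⟨_, rfl⟩
  have e : ∀ m : ℕ, eAdd (-((m : ℝ) * centre z)) *
      eAdd (-((m : ℝ) * ((h : ℝ) / M + -centre z))) = eAdd (-((m : ℝ) * ((h : ℝ) / M))) := by
    intro m
    rw [← eAdd_add]
    ring_nf
  have e1 : boxSummand k s X M N h - arcCoef k s N z * boxTerm k s X N ((h : ℝ) / M + -centre z) =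
      W * eAdd (-((N : ℝ) * ((h : ℝ) / M))) := by
    rw [hW, boxSummand, arcCoef, boxTerm, ← e N]
    ring
  have e2 : waringSum k (rootFloor k X) ((h : ℝ) / M) ^ s * eAdd (-((X : ℝ) * ((h : ℝ) / M))) -
      arcCoef k s X z * mainTerm k s X ((h : ℝ) / M + -centre z) =
      W * eAdd (-((X : ℝ) * ((h : ℝ) / M))) := by
    rw [hW, arcCoef, mainTerm, ← e X]
    ring
  rw [e1, e2, norm_mul, norm_mul, norm_eAdd, norm_eAdd]

theorem sum_grid_boxSummand {k s X M N : ℕ} (hk : 1 ≤ k) (hs : 2 ≤ s) (hN : 1 ≤ N) (hNX : N ≤ X)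
    (hM : M = s * X) : ∑ h ∈ range M, boxSummand k s X M N h = (M : ℂ) * repCount k s N := by
  have hX : 1 ≤ X := hN.trans hNX
  obtain ⟨-, hPX, hXP⟩ := rootFloor_spec hk hX
  obtain ⟨P, hP⟩ : ∃ P, P = rootFloor k X := ⟨_, rfl⟩
  rw [← hP] at hPX hXP
  have h2 : 2 * X ≤ M := hM ▸ Nat.mul_le_mul_right X hs
  have e : ∀ x : ℝ, waringSum k P x = ∑ i ∈ Icc 1 P, (1 : ℂ) * eAdd ((i ^ k : ℕ) * x) := fun x => by
    rw [waringSum]
    refine sum_congr rfl fun i _ => ?_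
    rw [one_mul, mul_comm]
    push_cast
    rfl
  have hg := sum_pow_grid (Icc 1 P) (fun _ => (1 : ℂ)) (fun i => i ^ k) (s := s) (N := N) (M := M)
    (B := P ^ k) (fun i hi => Nat.pow_le_pow_left (mem_Icc.1 hi).2 k)
    (by have := Nat.mul_le_mul_left s hPX; omega) (by omega) 0
  simp only [add_zero, ← e, prod_const_one, sum_const, nsmul_eq_mul, mul_one] at hg
  simp only [boxSummand, ← hP]
  rw [hg]
  congr 2
  rw [repCount]
  congr 1
  ext z
  simp only [mem_filter, Fintype.mem_piFinset, mem_Icc]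
  refine ⟨fun h => ⟨fun i => ⟨(h.1 i).1, ?_⟩, h.2⟩, fun h => ⟨fun i => ⟨(h.1 i).1, ?_⟩, h.2⟩⟩
  · have h4 := single_le_sum (f := fun j => z j ^ k) (fun j _ => Nat.zero_le _) (mem_univ i)
    have h5 := h.2
    exact (Nat.le_self_pow (by omega) _).trans (h4.trans h5.le)
  · by_contra hlt
    have h3 := Nat.pow_le_pow_left (show P + 1 ≤ z i by omega) k
    have h4 := single_le_sum (f := fun j => z j ^ k) (fun j _ => Nat.zero_le _) (mem_univ i)
    have h5 := h.2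
    omega

theorem sum_grid_boxTerm {k s X M N : ℕ} (hs : 2 ≤ s) (hN : 1 ≤ N) (hNX : N ≤ X)
    (hM : M = s * X) (θ : ℝ) :
    ∑ h ∈ range M, boxTerm k s X N ((h : ℝ) / M + θ) =
      (M : ℂ) * weightConv (1 / (k : ℝ)) s N := by
  have h2 : 2 * X ≤ M := hM ▸ Nat.mul_le_mul_right X hs
  have hg := sum_pow_grid (Ioc 0 X) (fun m => (weight (1 / (k : ℝ)) m : ℂ)) (fun m => m) (s := s)
    (N := N) (M := M) (B := X) (fun i hi => (mem_Ioc.1 hi).2) (by omega) (by omega) θ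
  have hset : (Fintype.piFinset fun _ : Fin s => Ioc 0 N).filter (fun z => ∑ i, z i = N) =
      (Fintype.piFinset fun _ : Fin s => Ioc 0 X).filter (fun z => ∑ i, z i = N) := by
    ext z
    simp only [mem_filter, Fintype.mem_piFinset, mem_Ioc]
    refine ⟨fun h => ⟨fun i => ⟨(h.1 i).1, (h.1 i).2.trans hNX⟩, h.2⟩,
      fun h => ⟨fun i => ⟨(h.1 i).1, ?_⟩, h.2⟩⟩
    exact (single_le_sum (f := z) (fun j _ => Nat.zero_le _) (mem_univ i)).trans h.2.le
  rw [weightConv, hset, Complex.ofReal_sum]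
  push_cast
  exact hg

/-- **The major arcs** for every `N ≤ X`: what is left are the minor arcs. -/
theorem exists_major_rest {k n : ℕ} (hk : 2 ≤ k) (h3k : 3 * k ≤ n + 1) : ∃ C : ℝ, 0 < C ∧
    ∀ X P M N : ℕ, P = rootFloor k X → M = (n + 1) * X → 1 ≤ N → N ≤ X →
      ‖((repCount k (n + 1) N : ℕ) : ℂ) -
          (weightConv (1 / (k : ℝ)) (n + 1) N : ℂ) * ∑' q, singularTerm k (n + 1) N q -
          (∑ h ∈ minorSet M P X, boxSummand k (n + 1) X M N h) / M‖ ≤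
        C * (X : ℝ) ^ (((n + 1 : ℕ) : ℝ) / k - 1) * (P : ℝ) ^ (-(weylSaving k / 2)) := by
  obtain ⟨C₂, hC₂, harc⟩ := exists_arc_error hk n
  obtain ⟨C₃, hC₃, htail⟩ := exists_arc_tail_norm hk h3k
  obtain ⟨C₄, hC₄, hser⟩ := exists_singular_tail hk h3k
  obtain ⟨Z, hZ0, hZ⟩ := exists_sum_norm_arcCoef_le hk h3k
  have hk0 : (0 : ℝ) < k := by exact_mod_cast (show 0 < k by omega)
  have hX2 : 2 ≤ ((n + 1 : ℕ) : ℝ) * (1 / (k : ℝ)) := by
    rw [mul_one_div, le_div_iff₀ hk0]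
    exact_mod_cast (show 2 * k ≤ n + 1 by omega)
  obtain ⟨C₆, hC₆, hconv⟩ := exists_weightConv_asymptotic (c := 1 / (k : ℝ)) (by positivity) hX2
  obtain ⟨G, hG⟩ : ∃ G : ℝ, G = C₆ + Real.Gamma (1 + 1 / (k : ℝ)) ^ (n + 1) /
      Real.Gamma (((n + 1 : ℕ) : ℝ) * (1 / (k : ℝ))) := ⟨_, rfl⟩
  have hg1 := Real.Gamma_pos_of_pos (show (0 : ℝ) < 1 + 1 / (k : ℝ) by positivity)
  have hg2 := Real.Gamma_pos_of_pos (show 0 < ((n + 1 : ℕ) : ℝ) * (1 / (k : ℝ)) by linarith)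
  have hG0 : 0 < G := by rw [hG]; positivity
  refine ⟨C₂ + Z * C₃ + G * C₄, by positivity, fun X P M N hP hM hN hNX => ?_⟩
  have hX : 1 ≤ X := hN.trans hNX
  obtain ⟨hP1, hPX, hXP⟩ := rootFloor_spec (show 1 ≤ k by omega) hX
  rw [← hP] at hP1 hPX hXP
  have hPr : (1 : ℝ) ≤ P := by exact_mod_cast hP1
  have hX1 : (1 : ℝ) ≤ X := by exact_mod_cast hX
  have hN1 : (1 : ℝ) ≤ N := by exact_mod_cast hN
  obtain ⟨Q, hQ⟩ : ∃ Q, Q = ⌊(P : ℝ) ^ (1 / 10 : ℝ)⌋₊ := ⟨_, rfl⟩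
  obtain ⟨δ, hδ⟩ : ∃ δ, δ = (P : ℝ) ^ (1 / 10 : ℝ) / (X : ℝ) := ⟨_, rfl⟩
  obtain ⟨F, hF⟩ : ∃ F : ℕ → ℂ, F = boxSummand k (n + 1) X M N := ⟨_, rfl⟩
  rw [← hF]
  have hM0 : (0 : ℝ) < M := by rw [hM]; positivity
  obtain ⟨σ, hσ⟩ : ∃ σ, σ = weylSaving k / 2 := ⟨_, rfl⟩
  rw [← hσ]
  have hσ' : σ ≤ 1 / 80 := by rw [hσ]; linarith [weylSaving_le_of_two_le hk]
  have hσ0 : 0 ≤ σ := by rw [hσ]; linarith [weylSaving_pos k]
  obtain ⟨E, hE⟩ : ∃ E : ℝ, E = (X : ℝ) ^ (((n + 1 : ℕ) : ℝ) / k - 1) * (P : ℝ) ^ (-σ) :=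
    ⟨_, rfl⟩
  have hE0 : 0 ≤ E := by rw [hE]; positivity
  have hY0 : 0 ≤ ((n + 1 : ℕ) : ℝ) / k - 1 := by
    rw [← mul_one_div]; linarith
  have hPE : ∀ e : ℝ, e ≤ ((n + 1 : ℕ) : ℝ) - k - σ → (P : ℝ) ^ e ≤ E := fun e he => by
    rw [hE]
    refine (Real.rpow_le_rpow_of_exponent_le hPr he).trans ?_
    rw [sub_eq_add_neg _ σ, Real.rpow_add (by linarith)]
    refine mul_le_mul_of_nonneg_right ?_ (by positivity)
    refine le_trans (le_of_eq ?_) (pow_root_le hY0 hPX)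
    congr 1
    field_simp
  have hQP : (Q : ℝ) ≤ (P : ℝ) ^ (1 / 10 : ℝ) := hQ ▸ Nat.floor_le (by positivity)
  have hsep : ((arcCentres Q : Set (Σ _ : ℕ, ℕ))).PairwiseDisjoint (arc M δ) :=
    hQ ▸ hδ ▸ arc_pairwiseDisjoint M hk hP1 hPX
  have hdecomp : ∑ h ∈ range M, F h =
      ∑ h ∈ minorSet M P X, F h + ∑ z ∈ arcCentres Q, ∑ h ∈ arc M δ z, F h := by
    rw [← sum_biUnion hsep, minorSet, ← hQ, ← hδ, sum_sdiff]
    exact biUnion_subset.2 fun z _ => filter_subset _ _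
  have p3 : ‖∑ z ∈ arcCentres Q, ∑ h ∈ arc M δ z, (F h - arcCoef k (n + 1) N z *
      boxTerm k (n + 1) X N ((h : ℝ) / M + -centre z))‖ ≤ M * (C₂ * E) := by
    refine (norm_sum_le _ _).trans ((sum_le_card_nsmul _ _ (C₂ * (P : ℝ) ^ ((n : ℝ) + 4 / 10))
      fun z hz => ?_).trans ?_)
    · refine (norm_sum_le _ _).trans ?_
      have := harc X P M hP hX hM z (hQ ▸ hz)
      rw [← hδ] at this
      refine le_trans (le_of_eq (sum_congr rfl fun h _ => ?_)) this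
      rw [hF, norm_boxSummand_sub, ← hP]
    · rw [nsmul_eq_mul]
      have hcard := hQ ▸ card_arcCentres_le P hP1
      refine (mul_le_mul_of_nonneg_right hcard (by positivity)).trans ?_
      have hPM : (P : ℝ) ^ (k : ℝ) ≤ M := by
        rw [Real.rpow_natCast]
        exact_mod_cast hPX.trans (hM ▸ Nat.le_mul_of_pos_left X n.succ_pos)
      calc (P : ℝ) ^ (2 / 10 : ℝ) * (C₂ * (P : ℝ) ^ ((n : ℝ) + 4 / 10))
          = C₂ * ((P : ℝ) ^ (k : ℝ) * (P : ℝ) ^ ((n : ℝ) + 6 / 10 - k)) := by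
            rw [mul_left_comm, ← Real.rpow_add (by linarith), ← Real.rpow_add (by linarith)]
            ring_nf
        _ ≤ C₂ * ((M : ℝ) * E) := mul_le_mul_of_nonneg_left
            (mul_le_mul hPM (hPE _ (by push_cast; linarith)) (by positivity) hM0.le) hC₂.le
        _ = _ := by ring
  have hZsum := hZ N Q
  have p5 : ‖∑ z ∈ arcCentres Q, arcCoef k (n + 1) N z *
      ∑ h ∈ range M \ arc M δ z, boxTerm k (n + 1) X N ((h : ℝ) / M + -centre z)‖ ≤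
        M * (Z * C₃ * E) := by
    refine (norm_sum_le _ _).trans ((sum_le_sum fun z hz => ?_).trans
      ((sum_mul _ _ (C₃ * M * E)).ge.trans ((mul_le_mul_of_nonneg_right hZsum
        (by positivity)).trans (le_of_eq (by ring)))))
    rw [norm_mul]
    refine mul_le_mul_of_nonneg_left ?_ (norm_nonneg _)
    have := htail X P M hP hX hM z (hQ ▸ hz)
    rw [← hδ] at this
    refine ((norm_sum_le _ _).trans (le_of_eq (sum_congr rfl fun h _ => norm_boxTerm _ _ _ _ _)))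
      |>.trans (this.trans ?_)
    rw [hE, mul_assoc (C₃ * M)]
    exact mul_le_mul_of_nonneg_left (mul_le_mul_of_nonneg_left
      (Real.rpow_le_rpow_of_exponent_le hPr (by linarith)) (by positivity)) (by positivity)
  have hident : (M : ℂ) * repCount k (n + 1) N -
      (M : ℂ) * weightConv (1 / (k : ℝ)) (n + 1) N * ∑ z ∈ arcCentres Q, arcCoef k (n + 1) N z -
      ∑ h ∈ minorSet M P X, F h =
      ∑ z ∈ arcCentres Q, ∑ h ∈ arc M δ z,
          (F h - arcCoef k (n + 1) N z * boxTerm k (n + 1) X N ((h : ℝ) / M + -centre z)) -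
        ∑ z ∈ arcCentres Q, arcCoef k (n + 1) N z *
          ∑ h ∈ range M \ arc M δ z, boxTerm k (n + 1) X N ((h : ℝ) / M + -centre z) := by
    have h1 : ∀ z ∈ arcCentres Q,
        (M : ℂ) * weightConv (1 / (k : ℝ)) (n + 1) N * arcCoef k (n + 1) N z =
          ∑ h ∈ arc M δ z, arcCoef k (n + 1) N z *
              boxTerm k (n + 1) X N ((h : ℝ) / M + -centre z) +
            arcCoef k (n + 1) N z *
              ∑ h ∈ range M \ arc M δ z, boxTerm k (n + 1) X N ((h : ℝ) / M + -centre z) := by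
      intro z _
      rw [← mul_sum, ← mul_add, add_comm (∑ h ∈ arc M δ z, _), sum_sdiff
        (show arc M δ z ⊆ range M from filter_subset _ _),
        sum_grid_boxTerm (by omega) hN hNX hM]
      ring
    rw [← sum_grid_boxSummand (by omega) (by omega) hN hNX hM, mul_sum, sum_congr rfl h1,
      sum_add_distrib, ← hF, hdecomp]
    simp only [sum_sub_distrib]
    ring
  have hmain : ‖((repCount k (n + 1) N : ℕ) : ℂ) -
      (weightConv (1 / (k : ℝ)) (n + 1) N : ℂ) * ∑ z ∈ arcCentres Q, arcCoef k (n + 1) N z -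
      (∑ h ∈ minorSet M P X, F h) / M‖ ≤ (C₂ + Z * C₃) * E := by
    refine le_of_mul_le_mul_left ?_ hM0
    rw [← Complex.norm_natCast M, ← norm_mul, mul_sub, mul_sub, ← mul_assoc,
      mul_div_cancel₀ _ (Nat.cast_ne_zero.2 (Nat.cast_pos.1 hM0).ne'), hident, Complex.norm_natCast]
    refine (norm_sub_le _ _).trans ((add_le_add p3 p5).trans (le_of_eq ?_))
    ring
  have hJ : |weightConv (1 / (k : ℝ)) (n + 1) N| ≤ G * (X : ℝ) ^ (((n + 1 : ℕ) : ℝ) / k - 1) := by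
    have h := hconv N hN
    rw [mul_one_div] at h
    have h2 : (N : ℝ) ^ (((n + 1 : ℕ) : ℝ) / k - 2) ≤ (N : ℝ) ^ (((n + 1 : ℕ) : ℝ) / k - 1) :=
      Real.rpow_le_rpow_of_exponent_le hN1 (by linarith)
    have h3 := mul_le_mul_of_nonneg_left h2 hC₆.le
    have h4 : 0 ≤ Real.Gamma (1 + 1 / (k : ℝ)) ^ (n + 1) /
        Real.Gamma (((n + 1 : ℕ) : ℝ) / k) * (N : ℝ) ^ (((n + 1 : ℕ) : ℝ) / k - 1) := by
      rw [mul_one_div] at hg2; positivity
    have h5 : (N : ℝ) ^ (((n + 1 : ℕ) : ℝ) / k - 1) ≤ (X : ℝ) ^ (((n + 1 : ℕ) : ℝ) / k - 1) :=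
      Real.rpow_le_rpow (by linarith) (Nat.cast_le.2 hNX) hY0
    refine le_trans ?_ (mul_le_mul_of_nonneg_left h5 hG0.le)
    rw [hG, mul_one_div]
    rw [abs_le] at h ⊢
    constructor <;> linarith
  have hlast : ‖(weightConv (1 / (k : ℝ)) (n + 1) N : ℂ) *
      (∑ z ∈ arcCentres Q, arcCoef k (n + 1) N z - ∑' q, singularTerm k (n + 1) N q)‖ ≤
        G * C₄ * E := by
    rw [norm_mul, Complex.norm_real, Real.norm_eq_abs, sum_arcCoef]
    refine (mul_le_mul hJ ((hser N Q).2.1.trans (mul_le_mul_of_nonneg_left (?_ : _ ≤ (P : ℝ) ^ (-σ))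
      hC₄.le)) (norm_nonneg _) (by positivity)).trans (le_of_eq (by rw [hE]; ring))
    have h1 : (P : ℝ) ^ (1 / 10 : ℝ) ≤ ((Q + 1 : ℕ) : ℝ) := by
      push_cast; exact hQ ▸ (Nat.lt_floor_add_one _).le
    refine (Real.rpow_le_rpow_of_nonpos (by positivity) h1 (by norm_num)).trans ?_
    rw [← Real.rpow_mul (by linarith)]
    exact Real.rpow_le_rpow_of_exponent_le hPr (by linarith)
  rw [show ((repCount k (n + 1) N : ℕ) : ℂ) -
      (weightConv (1 / (k : ℝ)) (n + 1) N : ℂ) * ∑' q, singularTerm k (n + 1) N q -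
      (∑ h ∈ minorSet M P X, F h) / M =
    (((repCount k (n + 1) N : ℕ) : ℂ) -
      (weightConv (1 / (k : ℝ)) (n + 1) N : ℂ) * ∑ z ∈ arcCentres Q, arcCoef k (n + 1) N z -
      (∑ h ∈ minorSet M P X, F h) / M) +
    (weightConv (1 / (k : ℝ)) (n + 1) N : ℂ) *
      (∑ z ∈ arcCentres Q, arcCoef k (n + 1) N z - ∑' q, singularTerm k (n + 1) N q) by ring]
  refine (norm_add_le _ _).trans ((add_le_add hmain hlast).trans (le_of_eq ?_))
  rw [hE]
  ring

/-- The main term of the formula. -/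
def waringMain (k s N : ℕ) : ℝ :=
  singularSeries k s N * (Real.Gamma (1 + 1 / (k : ℝ)) ^ s / Real.Gamma ((s : ℝ) / k)) *
    (N : ℝ) ^ ((s : ℝ) / k - 1)

/-- **The mean square.** -/
theorem exists_mean_square {k s : ℕ} (hk : 2 ≤ k) (hs : 2 ^ (k - 1) + 1 ≤ s) (h3k : 3 * k ≤ s) :
    ∃ C δ : ℝ, 0 < C ∧ 0 < δ ∧ δ ≤ 1 ∧ ∀ X : ℕ, 1 ≤ X →
      ∑ N ∈ Icc 1 X, ((repCount k s N : ℝ) - waringMain k s N) ^ 2 ≤
        C * (X : ℝ) ^ (2 * ((s : ℝ) / k - 1) + 1 - δ) := by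
  obtain ⟨n, rfl⟩ : ∃ n, s = n + 1 := ⟨s - 1, by omega⟩
  have hk0 : (0 : ℝ) < k := by exact_mod_cast (show 0 < k by omega)
  have h2k : 2 ^ k = 2 * 2 ^ (k - 1) := by rw [← pow_succ', show k - 1 + 1 = k by omega]
  have hX2 : 2 ≤ ((n + 1 : ℕ) : ℝ) * (1 / (k : ℝ)) := by
    rw [mul_one_div, le_div_iff₀ hk0]
    exact_mod_cast (show 2 * k ≤ n + 1 by omega)
  obtain ⟨C₁, hC₁, hmin⟩ := WaringHua.exists_minor_sum (s := 2 * (n + 1)) hk (by omega)
  obtain ⟨C₂, hC₂, hrest⟩ := exists_major_rest hk h3k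
  obtain ⟨C₃, hC₃, hconv⟩ := exists_weightConv_asymptotic (c := 1 / (k : ℝ)) (by positivity) hX2
  obtain ⟨C₄, hC₄, hser⟩ := exists_singular_tail hk h3k
  obtain ⟨σ, hσ⟩ : ∃ σ, σ = weylSaving k / 2 := ⟨_, rfl⟩
  have hσ0 : 0 < σ := hσ ▸ half_pos (weylSaving_pos k)
  obtain ⟨δ, hδ⟩ : ∃ δ, δ = σ / k := ⟨_, rfl⟩
  have hδ0 : 0 < δ := hδ ▸ div_pos hσ0 hk0
  have hδ1 : δ ≤ 1 := by
    rw [hδ, div_le_one hk0, hσ]
    have : (2 : ℝ) ≤ k := by exact_mod_cast hk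
    linarith [weylSaving_le k]
  refine ⟨3 * (2 * C₁ * 2 ^ σ + (C₂ * 2 ^ σ) ^ 2 + (C₄ * C₃) ^ 2), δ, by positivity, hδ0, hδ1,
    fun X hX => ?_⟩
  obtain ⟨Y, hY⟩ : ∃ Y : ℝ, Y = ((n + 1 : ℕ) : ℝ) / k - 1 := ⟨_, rfl⟩
  have hY1 : 1 ≤ Y := by rw [hY, ← mul_one_div]; linarith
  rw [← hY]
  obtain ⟨hP1, hPX, hXP⟩ := rootFloor_spec (show 1 ≤ k by omega) hX
  obtain ⟨P, hP⟩ : ∃ P, P = rootFloor k X := ⟨_, rfl⟩
  rw [← hP] at hP1 hPX hXP
  obtain ⟨M, hM⟩ : ∃ M, M = (n + 1) * X := ⟨_, rfl⟩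
  have hM0 : 0 < M := hM ▸ Nat.mul_pos n.succ_pos hX
  have hMr : (0 : ℝ) < M := Nat.cast_pos.2 hM0
  have hX1 : (1 : ℝ) ≤ X := by exact_mod_cast hX
  obtain ⟨m, hm⟩ : ∃ m : ℕ → ℂ,
      m = fun N : ℕ => (∑ h ∈ minorSet M P X, boxSummand k (n + 1) X M N h) / M := ⟨_, rfl⟩
  have hroot : (P : ℝ) ^ (-σ) ≤ 2 ^ σ * (X : ℝ) ^ (-δ) :=
    hδ ▸ root_neg_le (by omega) hP1 hX hXP hσ0.le
  have hpt : ∀ N ∈ Icc 1 X, ((repCount k (n + 1) N : ℝ) - waringMain k (n + 1) N) ^ 2 ≤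
      3 * (‖m N‖ ^ 2 + (C₂ * 2 ^ σ * (X : ℝ) ^ (Y - δ)) ^ 2 +
        (C₄ * C₃ * (X : ℝ) ^ (Y - 1)) ^ 2) := by
    intro N hN
    rw [mem_Icc] at hN
    obtain ⟨T, hT⟩ : ∃ T, T = ∑' q, singularTerm k (n + 1) N q := ⟨_, rfl⟩
    obtain ⟨J, hJ⟩ : ∃ J, J = weightConv (1 / (k : ℝ)) (n + 1) N := ⟨_, rfl⟩
    obtain ⟨A, hA⟩ : ∃ A : ℝ, A = Real.Gamma (1 + 1 / (k : ℝ)) ^ (n + 1) /
      Real.Gamma (((n + 1 : ℕ) : ℝ) / k) * (N : ℝ) ^ Y := ⟨_, rfl⟩
    have hmainA : waringMain k (n + 1) N = T.re * A := by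
      rw [waringMain, singularSeries, hT, hA, ← hY, mul_assoc]
    have h1 := hrest X P M N hP hM hN.1 hN.2
    rw [← hT, ← hJ, ← hY, ← hσ] at h1
    have h1m : (∑ h ∈ minorSet M P X, boxSummand k (n + 1) X M N h) / (M : ℂ) = m N := by rw [hm]
    rw [h1m] at h1
    have h2 := hconv N hN.1
    rw [mul_one_div, ← hJ, ← hY, ← hA] at h2
    have hr : |(repCount k (n + 1) N : ℝ) - J * T.re - (m N).re| ≤
        C₂ * (X : ℝ) ^ Y * (P : ℝ) ^ (-σ) := by
      refine le_trans (le_of_eq ?_) ((Complex.abs_re_le_norm _).trans h1)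
      simp
    have hr' : |(repCount k (n + 1) N : ℝ) - J * T.re - (m N).re| ≤
        C₂ * 2 ^ σ * (X : ℝ) ^ (Y - δ) := by
      refine hr.trans ((mul_le_mul_of_nonneg_left hroot (by positivity)).trans (le_of_eq ?_))
      rw [sub_eq_add_neg, Real.rpow_add (by linarith)]
      ring
    have h5 : |T.re * (J - A)| ≤ C₄ * C₃ * (X : ℝ) ^ (Y - 1) := by
      rw [abs_mul, mul_assoc C₄]
      refine mul_le_mul ((Complex.abs_re_le_norm T).trans (hT ▸ (hser N 0).2.2))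
        (h2.trans (mul_le_mul_of_nonneg_left ?_ hC₃.le)) (abs_nonneg _) hC₄.le
      rw [show ((n + 1 : ℕ) : ℝ) / k - 2 = Y - 1 by rw [hY]; ring]
      exact Real.rpow_le_rpow (Nat.cast_nonneg _) (Nat.cast_le.2 hN.2) (by linarith)
    rw [hmainA]
    obtain ⟨u, hu⟩ : ∃ u, u = (repCount k (n + 1) N : ℝ) - J * T.re - (m N).re := ⟨_, rfl⟩
    rw [← hu] at hr'
    rw [show (repCount k (n + 1) N : ℝ) - T.re * A = (m N).re + u + T.re * (J - A) by rw [hu]; ring]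
    have q1 : (m N).re ^ 2 ≤ ‖m N‖ ^ 2 := by
      rw [← sq_abs]
      exact pow_le_pow_left₀ (abs_nonneg _) (Complex.abs_re_le_norm _) 2
    have q2 : u ^ 2 ≤ (C₂ * 2 ^ σ * (X : ℝ) ^ (Y - δ)) ^ 2 := by
      rw [← sq_abs]
      exact pow_le_pow_left₀ (abs_nonneg _) hr' 2
    have q3 : (T.re * (J - A)) ^ 2 ≤ (C₄ * C₃ * (X : ℝ) ^ (Y - 1)) ^ 2 := by
      rw [← sq_abs (T.re * (J - A))]
      exact pow_le_pow_left₀ (abs_nonneg _) h5 2
    linarith [sq_nonneg ((m N).re - u), sq_nonneg (u - T.re * (J - A)),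
      sq_nonneg ((m N).re - T.re * (J - A))]
  have hsub : minorSet M P X ⊆ range M := sdiff_subset
  have hbessel : ∑ N ∈ Icc 1 X, ‖m N‖ ^ 2 ≤ 2 * C₁ * 2 ^ σ * (X : ℝ) ^ (2 * Y + 1 - δ) := by
    have h1 : ∀ N ∈ Icc 1 X, ‖m N‖ ^ 2 = ‖∑ h ∈ minorSet M P X,
        waringSum k P ((h : ℝ) / M) ^ (n + 1) * eAdd (-(N * ((h : ℝ) / M)))‖ ^ 2 / (M : ℝ) ^ 2 := by
      intro N _
      simp only [hm, norm_div, Complex.norm_natCast, div_pow, boxSummand, ← hP]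
    rw [sum_congr rfl h1, ← sum_div, div_le_iff₀ (by positivity)]
    have h2X : 2 * X ≤ M := hM ▸ Nat.mul_le_mul_right X (by omega)
    refine (sum_le_sum_of_subset_of_nonneg (t := range M) (fun N hN => mem_range.2
      (by rw [mem_Icc] at hN; omega)) fun N _ _ => sq_nonneg _).trans ?_
    rw [AlmostGoldbach.sum_norm_sq_coeff hM0 _ hsub]
    obtain ⟨M₂, hM₂⟩ : ∃ M₂, M₂ = 2 * M := ⟨_, rfl⟩
    have h3 : ∑ h ∈ minorSet M P X, ‖waringSum k P ((h : ℝ) / M) ^ (n + 1)‖ ^ 2 ≤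
        2 * C₁ * (2 : ℝ) ^ σ * (X : ℝ) ^ (2 * Y + 1 - δ) * M := by
      have e : ∀ h : ℕ, ‖waringSum k P ((h : ℝ) / M) ^ (n + 1)‖ ^ 2 =
          ‖waringSum k P ((h : ℝ) / M)‖ ^ (2 * (n + 1)) := fun h => by
        rw [norm_pow, ← pow_mul, mul_comm]
      simp only [e]
      -- a grid of twice the width contains this one
      refine (sum_le_sum_of_subset_of_nonneg
        (t := (range M).filter fun h => 2 * h ∈ minorSet M₂ P X)
        (fun h hh => ?_) fun h _ _ => by positivity).trans ?_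
      · refine mem_filter.2 ⟨hsub hh, ?_⟩
        rw [minorSet, mem_sdiff, mem_biUnion] at hh ⊢
        have hhM := mem_range.1 hh.1
        refine ⟨mem_range.2 (by omega), fun ⟨z, hz, hzh⟩ => hh.2 ⟨z, hz, ?_⟩⟩
        simp only [arc, mem_filter, mem_range] at hzh ⊢
        refine ⟨hhM, ?_⟩
        rw [hM₂] at hzh
        push_cast at hzh
        rw [mul_div_mul_left _ _ two_ne_zero] at hzh
        exact hzh.2
      · refine le_trans (le_of_eq ?_) ((sum_le_sum_of_subset_of_nonneg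
          (t := minorSet M₂ P X) (s := ((range M).filter fun h => 2 * h ∈ minorSet M₂ P X).image
            fun h : ℕ => 2 * h)
          (f := fun h : ℕ => ‖waringSum k P ((h : ℝ) / M₂)‖ ^ (2 * (n + 1)))
          (fun h hh => ?_) fun h _ _ => by positivity).trans
          ((hmin X P M₂ hP1 hPX hXP (le_of_eq (by rw [hM₂, hM]; ring))).trans ?_))
        · rw [sum_image fun a _ b _ e => by omega]
          refine sum_congr rfl fun h _ => ?_
          rw [hM₂]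
          push_cast
          rw [mul_div_mul_left _ _ two_ne_zero]
        · obtain ⟨a, ha, rfl⟩ := mem_image.1 hh
          exact (mem_filter.1 ha).2
        · rw [← hσ, hM₂, Nat.cast_mul, Nat.cast_two]
          refine (mul_le_mul_of_nonneg_left (?_ : _ ≤ (2 : ℝ) ^ σ * (X : ℝ) ^ (2 * Y + 1 - δ))
            (by positivity)).trans (le_of_eq (by ring))
          rw [sub_eq_add_neg _ σ, Real.rpow_add (by exact_mod_cast hP1)]
          refine (mul_le_mul (?_ : _ ≤ (X : ℝ) ^ (2 * Y + 1)) hroot (by positivity)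
            (by positivity)).trans (le_of_eq ?_)
          · refine le_trans (le_of_eq ?_) (pow_root_le (by linarith) hPX)
            congr 1
            rw [hY]
            push_cast
            field_simp
            ring
          · rw [sub_eq_add_neg (2 * Y + 1), Real.rpow_add (by linarith) (2 * Y + 1) (-δ)]
            ring
    refine (mul_le_mul_of_nonneg_left h3 hMr.le).trans (le_of_eq ?_)
    ring
  refine (sum_le_sum hpt).trans ?_
  rw [← mul_sum, sum_add_distrib, sum_add_distrib, sum_const, sum_const, Nat.card_Icc,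
    Nat.add_sub_cancel, nsmul_eq_mul, nsmul_eq_mul]
  have e1 : (X : ℝ) * (C₂ * 2 ^ σ * (X : ℝ) ^ (Y - δ)) ^ 2 ≤
      (C₂ * 2 ^ σ) ^ 2 * (X : ℝ) ^ (2 * Y + 1 - δ) := by
    rw [mul_pow (C₂ * 2 ^ σ), mul_left_comm, ← Real.rpow_natCast ((X : ℝ) ^ (Y - δ)) 2,
      ← Real.rpow_mul (by linarith), ← Real.rpow_one_add' (by linarith) (by push_cast; linarith)]
    refine mul_le_mul_of_nonneg_left (Real.rpow_le_rpow_of_exponent_le hX1 ?_) (by positivity)
    push_cast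
    linarith
  have e2 : (X : ℝ) * (C₄ * C₃ * (X : ℝ) ^ (Y - 1)) ^ 2 ≤
      (C₄ * C₃) ^ 2 * (X : ℝ) ^ (2 * Y + 1 - δ) := by
    rw [mul_pow (C₄ * C₃), mul_left_comm, ← Real.rpow_natCast ((X : ℝ) ^ (Y - 1)) 2,
      ← Real.rpow_mul (by linarith), ← Real.rpow_one_add' (by linarith) (by push_cast; linarith)]
    refine mul_le_mul_of_nonneg_left (Real.rpow_le_rpow_of_exponent_le hX1 ?_) (by positivity)
    push_cast
    linarith
  linarith

end FA.WaringAlmostAll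

end
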