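import Fermat.Agent.WaringAlmostAll.MeanSquare
import Fermat.Agent.WaringAsymptotic.Positivity
import Fermat.Agent.WaringVinogradov.Local

/-!
# The exceptional set in Waring's problem
-/

set_option autoImplicit false

noncomputable section

namespace FA.WaringAlmostAll

open Finset FA.WaringAsymptotic

/-- **All but `O (X ^ (1 - η))` numbers satisfy the formula.** -/
theorem exists_formula_exceptions {k s : ℕ} (hk : 2 ≤ k) (hs : 2 ^ (k - 1) + 1 ≤ s)
    (h3k : 3 * k ≤ s) : ∃ C η : ℝ, 0 < C ∧ 0 < η ∧ η < 1 ∧ ∀ X : ℕ, 1 ≤ X →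
      (((Icc 1 X).filter fun N : ℕ => (N : ℝ) ^ ((s : ℝ) / k - 1 - η) <
          |(repCount k s N : ℝ) - waringMain k s N|).card : ℝ) ≤
        C * (X : ℝ) ^ (1 - η) := by
  classical
  obtain ⟨C, δ, hC, hδ0, hδ1, h⟩ := exists_mean_square hk hs h3k
  obtain ⟨Y, hY⟩ : ∃ Y : ℝ, Y = (s : ℝ) / k - 1 := ⟨_, rfl⟩
  have hk0 : (0 : ℝ) < k := by exact_mod_cast (show 0 < k by omega)
  have hY2 : 2 ≤ Y := by
    rw [hY, le_sub_iff_add_le, le_div_iff₀ hk0]
    exact_mod_cast (show (2 + 1) * k ≤ s by omega)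
  simp only [← hY] at h ⊢
  obtain ⟨η, hη⟩ : ∃ η, η = δ / (2 * Y + 3) := ⟨_, rfl⟩
  have hη0 : 0 < η := hη ▸ div_pos hδ0 (by linarith)
  have hη1 : η < 1 := by rw [hη, div_lt_one (by linarith)]; linarith
  have hδη : δ = η * (2 * Y + 3) := by rw [hη, div_mul_cancel₀]; linarith
  refine ⟨C + 1, η, by positivity, hη0, hη1, fun X hX => ?_⟩
  have hX1 : (1 : ℝ) ≤ X := by exact_mod_cast hX
  obtain ⟨B, hB⟩ : ∃ B, B = (X : ℝ) ^ (1 - η) := ⟨_, rfl⟩
  rw [← hB]
  have hB0 : 0 < B := hB ▸ Real.rpow_pos_of_pos (by linarith) _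
  obtain ⟨S, hS⟩ : ∃ S, S = (Icc 1 X).filter fun N : ℕ => (N : ℝ) ^ (Y - η) <
    |(repCount k s N : ℝ) - waringMain k s N| := ⟨_, rfl⟩
  rw [← hS, ← card_filter_add_card_filter_not (s := S) (fun N : ℕ => B ≤ (N : ℝ))]
  push_cast
  have hsmall : ((S.filter fun N : ℕ => ¬B ≤ (N : ℝ)).card : ℝ) ≤ B := by
    refine le_trans ?_ (Nat.floor_le hB0.le)
    refine Nat.cast_le.2 ((card_le_card (t := Icc 1 ⌊B⌋₊) fun N hN => ?_).trans (by simp))
    rw [mem_filter, hS, mem_filter, mem_Icc] at hN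
    exact mem_Icc.2 ⟨hN.1.1.1, Nat.le_floor (not_le.1 hN.2).le⟩
  have hlarge : ((S.filter fun N : ℕ => B ≤ (N : ℝ)).card : ℝ) * B ^ (2 * (Y - η)) ≤
      C * (X : ℝ) ^ (2 * Y + 1 - δ) := by
    refine le_trans ?_ (h X hX)
    rw [← nsmul_eq_mul, ← sum_const]
    refine (sum_le_sum fun N hN => ?_).trans (sum_le_sum_of_subset_of_nonneg
      (fun N hN => ?_) fun N _ _ => sq_nonneg _)
    · rw [mem_filter, hS, mem_filter] at hN
      rw [mul_comm 2 (Y - η), Real.rpow_mul hB0.le, Real.rpow_two, ← sq_abs ((repCount k s N : ℝ) -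
        waringMain k s N)]
      refine pow_le_pow_left₀ (Real.rpow_nonneg hB0.le _) ?_ 2
      exact (Real.rpow_le_rpow hB0.le hN.2 (by linarith)).trans hN.1.2.le
    · rw [mem_filter, hS, mem_filter] at hN
      exact hN.1.1
  have hpow : C * (X : ℝ) ^ (2 * Y + 1 - δ) ≤ C * B * B ^ (2 * (Y - η)) := by
    rw [mul_assoc, hB, ← Real.rpow_mul (by linarith), ← Real.rpow_add (by linarith)]
    refine mul_le_mul_of_nonneg_left (Real.rpow_le_rpow_of_exponent_le hX1 ?_) hC.le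
    rw [hδη]
    linarith [mul_self_nonneg η]
  have := le_of_mul_le_mul_right (hlarge.trans hpow) (Real.rpow_pos_of_pos hB0 _)
  linarith

/-- **Where the singular series is bounded below, almost every number is represented.** -/
theorem exists_nonrepresented {k s : ℕ} (hk : 2 ≤ k) (hs : 2 ^ (k - 1) + 1 ≤ s)
    (h3k : 3 * k ≤ s) {G : ℕ → Prop} [DecidablePred G]
    (hser : ∃ c : ℝ, 0 < c ∧ ∀ N, G N → c ≤ singularSeries k s N) :
    ∃ C η : ℝ, 0 < C ∧ 0 < η ∧ η < 1 ∧ ∀ X : ℕ, 1 ≤ X →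
      (((Icc 1 X).filter fun N => G N ∧ repCount k s N = 0).card : ℝ) ≤
        C * (X : ℝ) ^ (1 - η) := by
  classical
  obtain ⟨C, η, hC, hη0, hη1, h⟩ := exists_formula_exceptions hk hs h3k
  obtain ⟨c, hc, hser⟩ := hser
  obtain ⟨A, hA⟩ : ∃ A : ℝ,
      A = Real.Gamma (1 + 1 / (k : ℝ)) ^ s / Real.Gamma ((s : ℝ) / k) := ⟨_, rfl⟩
  have hk0 : (0 : ℝ) < k := by exact_mod_cast (show 0 < k by omega)
  have hs0 : (0 : ℝ) < s := by exact_mod_cast (show 0 < s by omega)
  have hA0 : 0 < A := hA ▸ div_pos (pow_pos (Real.Gamma_pos_of_pos (by positivity)) s)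
    (Real.Gamma_pos_of_pos (by positivity))
  obtain ⟨Y, hY⟩ : ∃ Y : ℝ, Y = (s : ℝ) / k - 1 := ⟨_, rfl⟩
  simp only [← hY] at h
  obtain ⟨N₀, hN₀⟩ := Filter.eventually_atTop.1
    (((tendsto_rpow_atTop hη0).comp tendsto_natCast_atTop_atTop).eventually
      (Filter.eventually_gt_atTop (1 / (c * A))))
  refine ⟨C + N₀ + 1, η, by positivity, hη0, hη1, fun X hX => ?_⟩
  have hX1 : (1 : ℝ) ≤ (X : ℝ) ^ (1 - η) :=
    Real.one_le_rpow (by exact_mod_cast hX) (by linarith)
  have hsub : ((Icc 1 X).filter fun N => G N ∧ repCount k s N = 0) ⊆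
      ((Icc 1 X).filter fun N : ℕ => (N : ℝ) ^ (Y - η) <
        |(repCount k s N : ℝ) - waringMain k s N|) ∪ Icc 1 N₀ := by
    intro N hN
    rw [mem_filter, mem_Icc] at hN
    rw [mem_union, mem_filter, mem_Icc, mem_Icc]
    rcases Nat.lt_or_ge N₀ N with hlt | hge
    · refine Or.inl ⟨hN.1, ?_⟩
      have hN0 : (0 : ℝ) < N := Nat.cast_pos.2 hN.1.1
      have h1 : 1 / (c * A) < (N : ℝ) ^ η := hN₀ N hlt.le
      rw [div_lt_iff₀ (mul_pos hc hA0)] at h1
      have h2 : c * A * (N : ℝ) ^ Y ≤ waringMain k s N := by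
        rw [waringMain, ← hA, ← hY]
        exact mul_le_mul_of_nonneg_right (mul_le_mul_of_nonneg_right (hser N hN.2.1) hA0.le)
          (by positivity)
      rw [hN.2.2, Nat.cast_zero, zero_sub, abs_neg]
      refine lt_of_lt_of_le ?_ (h2.trans (le_abs_self _))
      rw [Real.rpow_sub hN0, div_lt_iff₀ (Real.rpow_pos_of_pos hN0 η)]
      have := mul_lt_mul_of_pos_right h1 (Real.rpow_pos_of_pos hN0 Y)
      linarith
    · exact Or.inr ⟨hN.1.1, hge⟩
  refine (Nat.cast_le.2 ((card_le_card hsub).trans (card_union_le _ _))).trans ?_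
  rw [Nat.cast_add, Nat.card_Icc, Nat.add_sub_cancel]
  have h1 := h X hX
  have h2 : (N₀ : ℝ) ≤ N₀ * (X : ℝ) ^ (1 - η) := le_mul_of_one_le_right (Nat.cast_nonneg _) hX1
  linarith

/-- Fourth powers: a pattern at every prime outside one class modulo `16`. -/
theorem pattern_biquadrates {s : ℕ} (hs : 5 ≤ s) {N : ℕ} (h1 : 1 ≤ N % 16) (h2 : N % 16 ≤ s)
    (p : ℕ) (hp : p.Prime) : ∃ (y : Fin s → ℕ) (i₀ : Fin s), ¬p ∣ y i₀ ∧
      ((p ^ (2 * padicValNat p 4 + 1) : ℕ) : ℤ) ∣ ((∑ i, y i ^ 4 : ℕ) : ℤ) - N := by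
  rcases eq_or_ne p 2 with rfl | hp2
  · have hτ : padicValNat 2 4 = 2 := by
      rw [show (4 : ℕ) = 2 ^ 2 by norm_num, padicValNat.prime_pow]
    rw [hτ]
    refine exists_pattern_lift (k := 4) (e := 2) (τ := 2) (by norm_num) hp one_le_two
      (Or.inr (Or.inr le_rfl)) (by norm_num) hτ
      (y := fun i : Fin s => if (i : ℕ) < N % 16 then 1 else 0) (i₀ := ⟨0, by omega⟩) ?_ ?_
    · simp only [if_pos (show 0 < N % 16 by omega)]
      exact Nat.prime_two.not_dvd_one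
    · have e : ∑ i : Fin s, (if (i : ℕ) < N % 16 then 1 else 0) ^ 4 = N % 16 := by
        rw [Fin.sum_univ_eq_sum_range fun i => (if i < N % 16 then 1 else 0 : ℕ) ^ 4,
          sum_congr rfl fun i _ => show (if i < N % 16 then 1 else 0 : ℕ) ^ 4 =
            if i < N % 16 then 1 else 0 by split_ifs <;> simp,
          ← sum_filter, show (range s).filter (· < N % 16) = range (N % 16) by
            ext i; simp; omega]
        simp
      rw [e]
      norm_num
      omega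
  · have hτ : padicValNat p 4 = 0 := padicValNat.eq_zero_of_not_dvd fun h => hp2 (by
      have h' : p ∣ 2 ^ 2 := by simpa using h
      exact (Nat.prime_dvd_prime_iff_eq hp Nat.prime_two).1 (hp.dvd_of_dvd_pow h'))
    rw [hτ, mul_zero, zero_add, pow_one]
    exact exists_pattern_prime (by norm_num) (by omega) N hp

/-- **Almost every number in `s` classes modulo `16` is a sum of `s ≥ 12` fourth powers.** -/
theorem exists_biquadrates_class {s : ℕ} (hs : 12 ≤ s) : ∃ C η : ℝ, 0 < C ∧ 0 < η ∧ η < 1 ∧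
    ∀ X : ℕ, 1 ≤ X → (((Icc 1 X).filter fun N =>
      (1 ≤ N % 16 ∧ N % 16 ≤ s) ∧ repCount 4 s N = 0).card : ℝ) ≤ C * (X : ℝ) ^ (1 - η) := by
  obtain ⟨C, hC, hnear⟩ := exists_localDensity_near_one (k := 4) (s := s) (by norm_num) (by omega)
  exact exists_nonrepresented (by norm_num) (by norm_num; omega) (by omega)
    (exists_singularSeries_ge_of_local (by norm_num) (by omega)
      (norm_summable_singularTerm (by norm_num) (by omega))
      (a := fun p : ℕ => C * (p : ℝ) ^ (-(7 / 5) : ℝ))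
      ((Real.summable_nat_rpow.2 (by norm_num)).mul_left C) (fun p => by positivity) hnear
      fun N p hG hp => pattern_biquadrates (by omega) hG.1 hG.2 p hp)

/-- The numbers that are no sum of fifteen fourth powers of natural numbers. -/
def fifteenExceptions (X : ℕ) : Finset ℕ :=
  open scoped Classical in
    (Icc 1 X).filter fun N => ¬∃ x : Fin 15 → ℕ, ∑ i, x i ^ 4 = N

/-- **Almost every number is a sum of fifteen fourth powers.** -/
theorem exists_fifteen : ∃ C η : ℝ, 0 < C ∧ 0 < η ∧ η < 1 ∧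
    ∀ X : ℕ, ((fifteenExceptions X).card : ℝ) ≤ C * (X : ℝ) ^ (1 - η) := by
  classical
  obtain ⟨C, η, hC, hη0, hη1, h⟩ := exists_biquadrates_class (s := 15) (by norm_num)
  obtain ⟨a, ha⟩ : ∃ a : ℝ, a = 1 - η := ⟨_, rfl⟩
  simp only [← ha] at h
  have ha0 : 0 < a := by linarith
  obtain ⟨t, ht⟩ : ∃ t : ℝ, t = (1 / 16 : ℝ) ^ a := ⟨_, rfl⟩
  have ht1 : t < 1 := ht ▸ Real.rpow_lt_one (by norm_num) (by norm_num) ha0
  have ht0 : 0 ≤ t := ht ▸ by positivity
  refine ⟨C / (1 - t), η, div_pos hC (by linarith), hη0, hη1, fun X => ?_⟩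
  rw [← ha]
  induction X using Nat.strong_induction_on with
  | _ X ih =>
    rcases Nat.eq_zero_or_pos X with rfl | hX
    · simp [fifteenExceptions, Real.zero_rpow ha0.ne']
    have hsub : fifteenExceptions X ⊆ ((Icc 1 X).filter fun N =>
        (1 ≤ N % 16 ∧ N % 16 ≤ 15) ∧ repCount 4 15 N = 0) ∪
        (fifteenExceptions (X / 16)).image fun M => 16 * M := by
      intro N hN
      rw [fifteenExceptions, mem_filter] at hN
      rw [mem_union, mem_filter, mem_image]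
      rcases Nat.eq_zero_or_pos (N % 16) with h0 | h0
      · refine Or.inr ⟨N / 16, ?_, by omega⟩
        rw [fifteenExceptions, mem_filter]
        have := mem_Icc.1 hN.1
        refine ⟨mem_Icc.2 ⟨by omega, Nat.div_le_div_right this.2⟩, fun ⟨x, hx⟩ => hN.2 ?_⟩
        refine ⟨fun i => 2 * x i, ?_⟩
        rw [sum_congr rfl fun i _ => mul_pow 2 (x i) 4, ← mul_sum, hx]
        omega
      · refine Or.inl ⟨hN.1, ⟨h0, by omega⟩, ?_⟩
        by_contra hne
        obtain ⟨x, hx⟩ := card_pos.1 (Nat.pos_of_ne_zero hne)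
        exact hN.2 ⟨x, (mem_filter.1 hx).2⟩
    refine (Nat.cast_le.2 ((card_le_card hsub).trans (card_union_le _ _))).trans ?_
    rw [Nat.cast_add]
    have h1 := h X hX
    have h2 := (Nat.cast_le (α := ℝ)).2
      (card_image_le (s := fifteenExceptions (X / 16)) (f := fun M => 16 * M))
    have h3 := ih (X / 16) (by omega)
    have h4 : ((X / 16 : ℕ) : ℝ) ^ a ≤ t * (X : ℝ) ^ a := by
      rw [ht, ← Real.mul_rpow (by norm_num) (Nat.cast_nonneg _)]
      refine Real.rpow_le_rpow (Nat.cast_nonneg _) ?_ ha0.le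
      refine Nat.cast_div_le.trans (le_of_eq ?_)
      push_cast
      ring
    have h5 := mul_le_mul_of_nonneg_left h4 (div_pos hC (show 0 < 1 - t by linarith)).le
    have h6 : C * (X : ℝ) ^ a + C / (1 - t) * (t * (X : ℝ) ^ a) = C / (1 - t) * (X : ℝ) ^ a := by
      have : (1 - t) ≠ 0 := by linarith
      field_simp
      ring
    linarith

/-- Fourteen are not enough. -/
theorem not_fourteen {N : ℕ} (h : N % 16 = 15) (x : Fin 14 → ℕ) : ∑ i, x i ^ 4 ≠ N := by
  intro hx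
  have h1 : ∀ i, x i ^ 4 % 16 ≤ 1 := fun i => by
    rw [Nat.pow_mod]
    have : x i % 16 < 16 := Nat.mod_lt _ (by norm_num)
    interval_cases x i % 16 <;> norm_num
  have h2 : (∑ i, x i ^ 4 % 16) % 16 = 15 := by
    rw [← sum_nat_mod, hx, h]
  have h3 : ∑ i, x i ^ 4 % 16 ≤ 14 := (sum_le_card_nsmul _ _ 1 fun i _ => h1 i).trans (by simp)
  omega

end FA.WaringAlmostAll

end
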